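/-
S55 / block ASM (local consequences of `LocPkg`) : the abstract local package.

`Γ` a group with a level system `𝓝`, `K` a smooth `Γ`-module, `0 → μ → K → K → 0` the Kummer
sequence (multiplication by `p`), `inv : H^2(K) → ℚ/ℤ`.  `AbsLoc 𝓝 K μ p` collects what is used
for (T2) and (T3): Hilbert 90 (L1), `inv_Y` is an isomorphism on `p`-primary parts (L3), and the
functional `t` on `H^2(μ)`.  Only definitions.
-/
import Fermat.Agent.S55.Arith.LocInterface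

set_option autoImplicit false

namespace Fermat.Agent.S55.Asm

/-- The abstract local package. -/
structure AbsLoc {Γ : Type} [Group Γ] (𝓝 : LevelSys Γ) (K μ : Type) [AddCommGroup K]
    [DistribMulAction Γ K] [AddCommGroup μ] [DistribMulAction Γ μ] (p : ℕ) where
  /-- the inclusion `μ → K` -/
  φ : μ →+[Γ] K
  /-- multiplication by `p` -/
  ψ : K →+[Γ] K
  exact : ShortExact φ ψ
  ψ_eq : ∀ b, ψ b = p • b
  cardμ : Nat.card μ = p
  /-- the invariant map -/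
  inv : Hsm 𝓝 K 2 →+ QZ
  L1 : ∀ (Y : Type) [MulAction Γ Y] [Finite Y] [SmoothSet 𝓝 Y] (y : Hsm 𝓝 (IndMod Y K) 1), y = 0
  L3inj : ∀ (Y : Type) [MulAction Γ Y] [Finite Y] [SmoothSet 𝓝 Y] [MulAction.IsPretransitive Γ Y],
    ∀ y ∈ pPrimary p (Hsm 𝓝 (IndMod Y K) 2), inv (Hsm.map (IndMod.sum Y K) 2 y) = 0 → y = 0
  L3surj : ∀ (Y : Type) [MulAction Γ Y] [Finite Y] [SmoothSet 𝓝 Y]
    [MulAction.IsPretransitive Γ Y] [Nonempty Y], ∀ c ∈ pPrimary p QZ,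
    ∃ y ∈ pPrimary p (Hsm 𝓝 (IndMod Y K) 2), inv (Hsm.map (IndMod.sum Y K) 2 y) = c
  /-- the functional on `H^2(μ)` -/
  t : Hsm 𝓝 μ 2 →+ ZMod p
  t_spec : ∀ x : Hsm 𝓝 μ 2, inv (Hsm.map φ 2 x) = zmodToQZ p (t x)

/-- The index statement (L8), with `c = 1` if the residue characteristic is `p` and `0`
otherwise. -/
def AbsL8 {Γ : Type} [Group Γ] (𝓝 : LevelSys Γ) (K μ : Type) [AddCommGroup K]
    [DistribMulAction Γ K] [AddCommGroup μ] [DistribMulAction Γ μ] (p c : ℕ) : Prop :=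
  ∀ (Y : Type) [MulAction Γ Y] [Finite Y] [SmoothSet 𝓝 Y] [MulAction.IsPretransitive Γ Y] (y : Y),
    (∀ τ : Γ, τ • y = y → ∀ ζ : μ, τ • ζ = ζ) →
    (nsmulAddMonoidHom (α := Hsm 𝓝 (IndMod Y K) 0) p).range.index = p ^ (2 + c * Nat.card Y)

/-- LEMMA CHI2 (block CHI2), as a hypothesis. -/
def Chi2Hyp {Γ : Type} [Group Γ] (𝓝 : LevelSys Γ) (p : ℕ) : Prop :=
  ∀ {X' X : Type} [MulAction Γ X'] [MulAction Γ X] [Finite X'] [Finite X] [SmoothSet 𝓝 X']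
    [SmoothSet 𝓝 X] {u : X' →[Γ] X} {σ : X' →[Γ] X'} (_ : CyclicCover u σ p) (A : Type)
    [AddCommGroup A] [DistribMulAction Γ A] [Smooth 𝓝 A] (_ : ∀ a : A, p • a = 0)
    (_ : ∀ i ≤ 2, Finite (Hsm 𝓝 (IndMod X A) i))
    (_ : Nat.card (Hsm 𝓝 (IndMod X' A) 0) * Nat.card (Hsm 𝓝 (IndMod X' A) 2) *
        Nat.card (Hsm 𝓝 (IndMod X A) 1) ^ p =
      Nat.card (Hsm 𝓝 (IndMod X' A) 1) *
        (Nat.card (Hsm 𝓝 (IndMod X A) 0) * Nat.card (Hsm 𝓝 (IndMod X A) 2)) ^ p),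
    Function.Injective (Hsm.map (𝓝 := 𝓝) (IndMod.pull A u) 3)

end Fermat.Agent.S55.Asm
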