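/-
S55 / block ASM : the abstract form of (T3), local duality for `Map(Y, μ)`.

`L : AbsLoc 𝓝 K μ p`.  For a finite smooth `Γ`-set `Y`:
* `T3₁` : `x ∈ H^2(Map(Y, μ))` with `t (f_* x) = 0` for all equivariant `f : Map(Y, μ) → μ` is `0`;
* `T3₂` : an equivariant `f : Map(Y, μ) → μ` with `t (f_* x) = 0` for all `x` is `0`.
-/
import Fermat.Agent.S55.Asm.Defs
import Fermat.Agent.S55.Coh.IndProd
import Fermat.Agent.S55.Coh.IndApi
import Fermat.Agent.S55.F2.HomInd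

set_option autoImplicit false

namespace Fermat.Agent.S55.Asm

variable {Γ : Type} [Group Γ] {𝓝 : LevelSys Γ} {K μ : Type} [AddCommGroup K]
  [DistribMulAction Γ K] [AddCommGroup μ] [DistribMulAction Γ μ] {p : ℕ}

theorem smoothSet_orbit {Y : Type} [MulAction Γ Y] [SmoothSet 𝓝 Y]
    (ω : MulAction.orbitRel.Quotient Γ Y) : SmoothSet 𝓝 ω.orbit where
  exists_fix x := by
    obtain ⟨N, hN, h⟩ := SmoothSet.exists_fix (𝓝 := 𝓝) (x : Y)
    exact ⟨N, hN, fun n hn => Subtype.ext (h n hn)⟩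

theorem nonempty_orbit {Y : Type} [MulAction Γ Y] (ω : MulAction.orbitRel.Quotient Γ Y) :
    Nonempty ω.orbit := (MulAction.orbitRel.Quotient.nonempty_orbit ω).to_subtype

/-! ### `ℚ/ℤ` -/

theorem zmodToQZ_natCast (p : ℕ) (n : ℕ) : zmodToQZ p (n : ZMod p) = QZ.mk ((n : ℚ) / p) := by
  have h : zmodToQZ p ((n : ℤ) : ZMod p) = (n : ℤ) • QZ.mk (1 / (p : ℚ)) := by
    unfold zmodToQZ
    rw [ZMod.lift_coe]
    rfl
  rw [Int.cast_natCast] at h
  rw [h, ← map_zsmul]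
  congr 1
  simp [div_eq_mul_inv]

theorem zmodToQZ_injective (p : ℕ) [NeZero p] : Function.Injective (zmodToQZ p) := by
  rw [injective_iff_map_eq_zero]
  intro a ha
  obtain ⟨n, rfl⟩ := ZMod.natCast_zmod_surjective a
  rw [zmodToQZ_natCast] at ha
  obtain ⟨k, hk⟩ := (QuotientAddGroup.eq_zero_iff _).1 ha
  have hp : (p : ℚ) ≠ 0 := Nat.cast_ne_zero.2 (NeZero.ne p)
  have h1 : (n : ℚ) = k * p := by
    have : (k : ℚ) = (n : ℚ) / p := hk
    rw [this]; field_simp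
  have h2 : (n : ℤ) = k * p := by exact_mod_cast h1
  rw [ZMod.natCast_eq_zero_iff]
  exact Int.natCast_dvd_natCast.1 ⟨k, by rw [h2, mul_comm]⟩

theorem nsmul_zmodToQZ (p : ℕ) (a : ZMod p) : p • zmodToQZ p a = 0 := by
  rw [← map_nsmul]
  simp

/-- Multiplication by `m`, as an equivariant map. -/
def mulN (Γ A : Type) [Group Γ] [AddCommGroup A] [DistribMulAction Γ A] (m : ℕ) : A →+[Γ] A where
  toFun a := m • a
  map_smul' g a := (smul_comm g m a).symm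
  map_zero' := smul_zero m
  map_add' a b := smul_add m a b

theorem nsmul_eq_zero_of_coeff {A : Type} [AddCommGroup A] [DistribMulAction Γ A] (m : ℕ)
    (hA : ∀ a : A, m • a = 0) (n : ℕ) (x : Hsm 𝓝 A n) : m • x = 0 := by
  have h1 := Hsm.map_nsmul' (𝓝 := 𝓝) (χ := (0 : A →+[Γ] A)) m (fun a => (hA a).symm) n x
  rw [← h1]
  exact Hsm.map_zero' (fun _ => rfl) n x

namespace AbsLoc

variable (L : AbsLoc 𝓝 K μ p)

include L in
theorem ptors (a : μ) : p • a = 0 := by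
  apply L.exact.inj
  rw [map_nsmul, ← L.ψ_eq, L.exact.comp_eq_zero, map_zero]

/-- `t_Y = t ∘ (sum over Y)_*`. -/
noncomputable def tY (Y : Type) [MulAction Γ Y] [Finite Y] : Hsm 𝓝 (IndMod Y μ) 2 →+ ZMod p :=
  L.t.comp (Hsm.map (IndMod.sum Y μ) 2)

theorem inv_sum_mapCoeff (Y : Type) [MulAction Γ Y] [Finite Y] (x : Hsm 𝓝 (IndMod Y μ) 2) :
    L.inv (Hsm.map (IndMod.sum Y K) 2 (Hsm.map (IndMod.mapCoeff Y L.φ) 2 x)) =
      zmodToQZ p (L.tY Y x) := by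
  rw [tY, AddMonoidHom.comp_apply, ← L.t_spec, ← Hsm.map_comp, ← Hsm.map_comp]
  congr 1
  refine DFunLike.congr_fun (Hsm.map_congr (fun f => ?_) 2) x
  exact (IndMod.map_sum' L.φ f).symm

theorem nsmul_mapCoeff (Y : Type) [MulAction Γ Y] (n : ℕ) (x : Hsm 𝓝 (IndMod Y μ) n) :
    p • Hsm.map (IndMod.mapCoeff Y L.φ) n x = 0 := by
  rw [← map_nsmul, nsmul_eq_zero_of_coeff p (fun f => by ext y; exact L.ptors (f y)) n x, map_zero]

variable [Smooth 𝓝 K]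

/-- `H^2(Map(Y, μ)) → H^2(Map(Y, K))` is injective (Hilbert 90). -/
theorem mapCoeff_injective (Y : Type) [MulAction Γ Y] [Finite Y] [SmoothSet 𝓝 Y] :
    Function.Injective (Hsm.map (𝓝 := 𝓝) (IndMod.mapCoeff Y L.φ) 2) :=
  Hsm.map_injective_of_zero (IndMod.shortExact_mapCoeff Y L.exact) 1 (L.L1 Y)

/-- The image of `H^2(Map(Y, μ)) → H^2(Map(Y, K))` is the `p`-torsion. -/
theorem exists_mapCoeff_eq (Y : Type) [MulAction Γ Y] [Finite Y] [SmoothSet 𝓝 Y]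
    (y : Hsm 𝓝 (IndMod Y K) 2) (hy : p • y = 0) :
    ∃ x, Hsm.map (IndMod.mapCoeff Y L.φ) 2 x = y := by
  refine (Hsm.exact_map_map (IndMod.shortExact_mapCoeff Y L.exact) 2 y).1 ?_
  rw [Hsm.map_nsmul' p (fun f => by ext z; exact L.ψ_eq (f z)) 2 y, hy]

/-- `t_Y` is injective for transitive `Y`. -/
theorem tY_injective (Y : Type) [MulAction Γ Y] [Finite Y] [SmoothSet 𝓝 Y]
    [MulAction.IsPretransitive Γ Y] (x : Hsm 𝓝 (IndMod Y μ) 2) (hx : L.tY Y x = 0) : x = 0 := by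
  apply L.mapCoeff_injective Y
  rw [map_zero]
  refine L.L3inj Y _ ⟨1, ?_⟩ ?_
  · rw [pow_one]
    exact L.nsmul_mapCoeff Y 2 x
  · rw [L.inv_sum_mapCoeff, hx, map_zero]

/-- `t_Y` is surjective for transitive nonempty `Y`. -/
theorem exists_tY_eq_one [NeZero p] (Y : Type) [MulAction Γ Y] [Finite Y] [SmoothSet 𝓝 Y]
    [MulAction.IsPretransitive Γ Y] [Nonempty Y] : ∃ x : Hsm 𝓝 (IndMod Y μ) 2, L.tY Y x = 1 := by
  obtain ⟨y, hy, hyc⟩ := L.L3surj Y (zmodToQZ p 1) ⟨1, by rw [pow_one]; exact nsmul_zmodToQZ p 1⟩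
  have hpy : p • y = 0 := by
    refine L.L3inj Y _ ((pPrimary p _).nsmul_mem hy p) ?_
    rw [map_nsmul, map_nsmul, hyc, nsmul_zmodToQZ]
  obtain ⟨x, rfl⟩ := L.exists_mapCoeff_eq Y y hpy
  refine ⟨x, zmodToQZ_injective p ?_⟩
  rw [← L.inv_sum_mapCoeff, hyc]

/-- **(T3₁)**, abstract form. -/
theorem T3₁ (Y : Type) [MulAction Γ Y] [Finite Y] [SmoothSet 𝓝 Y] (x : Hsm 𝓝 (IndMod Y μ) 2)
    (hx : ∀ f : IndMod Y μ →+[Γ] μ, L.t (Hsm.map f 2 x) = 0) : x = 0 := by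
  refine (isPartition_orbits (G := Γ) Y).hsm_ext 2 x fun ω => ?_
  have := smoothSet_orbit (𝓝 := 𝓝) ω
  refine L.tY_injective ω.orbit _ ?_
  rw [tY, AddMonoidHom.comp_apply, ← Hsm.map_comp]
  exact hx _

omit [Smooth 𝓝 K] in
include L in
/-- An equivariant map `Map(Y, μ) → μ`, `Y` transitive, is a multiple of the sum. -/
theorem exists_eq_nsmul_sum [Fact p.Prime] (Y : Type) [MulAction Γ Y] [Finite Y]
    [MulAction.IsPretransitive Γ Y] [Nonempty Y] (f : IndMod Y μ →+[Γ] μ) :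
    ∃ c : ℕ, ∀ F, f F = c • IndMod.sum (G := Γ) Y μ F := by
  classical
  cases nonempty_fintype Y
  have hfin : Finite μ :=
    Nat.finite_of_card_ne_zero (by rw [L.cardμ]; exact (Fact.out : p.Prime).ne_zero)
  have hcyc : IsAddCyclic μ := isAddCyclic_of_prime_card L.cardμ
  obtain ⟨ζ, hζ⟩ := IsAddCyclic.exists_addMonoid_generator (α := μ)
  obtain ⟨y0⟩ := ‹Nonempty Y›
  obtain ⟨c, hc⟩ := hζ (f (F2.homIndDelta y0 ζ))
  have h0 : ∀ m : μ, f (F2.homIndDelta y0 m) = c • m := by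
    intro m
    obtain ⟨k, rfl⟩ := hζ m
    rw [map_nsmul, map_nsmul, ← hc, smul_comm]
  have h1 : ∀ (y : Y) (m : μ), f (F2.homIndDelta y m) = c • m := by
    intro y m
    obtain ⟨g, rfl⟩ := MulAction.exists_smul_eq Γ y0 y
    have : F2.homIndDelta (g • y0) m = g • F2.homIndDelta y0 (g⁻¹ • m) := by
      rw [F2.homInd_smul_delta, smul_inv_smul]
    rw [this, map_smul, h0, smul_comm, smul_inv_smul]
  refine ⟨c, fun F => ?_⟩
  conv_lhs => rw [F2.homInd_eq_sum_delta F]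
  rw [map_sum, IndMod.sum_eq_sum, Finset.smul_sum]
  exact Finset.sum_congr rfl fun y _ => h1 y (F y)

/-- **(T3₂)**, abstract form. -/
theorem T3₂ [Fact p.Prime] (Y : Type) [MulAction Γ Y] [Finite Y] [SmoothSet 𝓝 Y]
    (f : IndMod Y μ →+[Γ] μ) (hf : ∀ x : Hsm 𝓝 (IndMod Y μ) 2, L.t (Hsm.map f 2 x) = 0)
    (F : IndMod Y μ) : f F = 0 := by
  classical
  have : NeZero p := ⟨(Fact.out : p.Prime).ne_zero⟩
  have hpart := isPartition_orbits (G := Γ) Y
  have hfin : ∀ ω : MulAction.orbitRel.Quotient Γ Y, Finite ω.orbit := hpart.finite_piece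
  cases nonempty_fintype (MulAction.orbitRel.Quotient Γ Y)
  have key : ∀ (ω : MulAction.orbitRel.Quotient Γ Y) (E : IndMod ω.orbit μ),
      f (IndMod.push μ (orbitIncl ω) E) = 0 := by
    intro ω E
    have := smoothSet_orbit (𝓝 := 𝓝) ω
    have := nonempty_orbit ω
    obtain ⟨c, hc⟩ := L.exists_eq_nsmul_sum ω.orbit (f.comp (IndMod.push μ (orbitIncl ω)))
    obtain ⟨x, hx⟩ := L.exists_tY_eq_one ω.orbit
    have h1 := hf (Hsm.map (IndMod.push μ (orbitIncl ω)) 2 x)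
    rw [← Hsm.map_comp] at h1
    have h2 : Hsm.map (𝓝 := 𝓝) (f.comp (IndMod.push μ (orbitIncl ω))) 2 x =
        c • Hsm.map (IndMod.sum ω.orbit μ) 2 x := by
      rw [← Hsm.map_nsmul' (χ := mulN Γ μ c) c (fun a => rfl), ← Hsm.map_comp]
      exact DFunLike.congr_fun (Hsm.map_congr (fun E => hc E) 2) x
    rw [h2, map_nsmul] at h1
    have h3 : L.t (Hsm.map (IndMod.sum ω.orbit μ) 2 x) = 1 := hx
    rw [h3, nsmul_one, ZMod.natCast_eq_zero_iff] at h1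
    obtain ⟨d, rfl⟩ := h1
    have := hc E
    rw [DistribMulActionHom.comp_apply] at this
    rw [this, mul_smul, L.ptors]
  rw [hpart.sum_push_pull F, map_sum]
  exact Finset.sum_eq_zero fun ω _ => key ω _

end AbsLoc

end Fermat.Agent.S55.Asm
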