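/-
S55 / block ASM : the abstract form of (T2), `H^3(Map(Y, μ)) = 0` for every finite smooth
`Γ`-set `Y`, from the abstract local package, the index formula (L8), LEMMA CHI2 and chain
induction.
-/
import Fermat.Agent.S55.Asm.T3Abs
import Fermat.Agent.S55.Coh.Chain
import Fermat.Agent.S55.Coh.Coset
import Fermat.Agent.S55.F2.Sylow
import Fermat.Agent.S55.Units.T1.KummerCount

set_option autoImplicit false

namespace Fermat.Agent.S55.Asm

variable {Γ : Type} [Group Γ] {𝓝 : LevelSys Γ} {K μ : Type} [AddCommGroup K]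
  [DistribMulAction Γ K] [AddCommGroup μ] [DistribMulAction Γ μ] {p : ℕ}

/-- The kernel of the action on `μ`. -/
def actKer (Γ μ : Type) [Group Γ] [AddCommGroup μ] [DistribMulAction Γ μ] : Subgroup Γ where
  carrier := {g | ∀ a : μ, g • a = a}
  one_mem' a := one_smul Γ a
  mul_mem' {g h} hg hh a := by rw [mul_smul, hh a, hg a]
  inv_mem' {g} hg a := by rw [inv_smul_eq_iff, hg a]

instance actKer_normal : (actKer Γ μ).Normal where
  conj_mem g hg h a := by
    rw [mul_smul, mul_smul, hg, smul_inv_smul]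

theorem isOpen_actKer [Smooth 𝓝 μ] [Finite μ] : 𝓝.IsOpen (actKer Γ μ) := by
  obtain ⟨N, hN, h⟩ := Smooth.exists_fix_of_finite (𝓝 := 𝓝) (Set.finite_univ (α := μ))
  exact ⟨N, hN, fun n hn a => h a (Set.mem_univ a) n hn⟩

theorem index_actKer_coprime [Fact p.Prime] (hμ : Nat.card μ = p) [(actKer Γ μ).FiniteIndex] :
    ((actKer Γ μ).index).Coprime p := by
  have hp : p.Prime := Fact.out
  rw [Nat.coprime_comm, Nat.Prime.coprime_iff_not_dvd hp]
  intro hdvd
  have hfin : Finite (Γ ⧸ actKer Γ μ) := Subgroup.finite_quotient_of_finiteIndex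
  obtain ⟨x, hx⟩ := exists_prime_orderOf_dvd_card' (G := Γ ⧸ actKer Γ μ) p hdvd
  obtain ⟨g, rfl⟩ := QuotientGroup.mk_surjective x
  have h1 : g ^ p ∈ actKer Γ μ := by
    rw [← QuotientGroup.eq_one_iff, QuotientGroup.mk_pow, ← hx, pow_orderOf_eq_one]
  have h2 : g ∈ actKer Γ μ :=
    F2.smul_eq_of_pow p μ hμ g 1 (by rw [pow_one]; exact h1)
  have h3 : (g : Γ ⧸ actKer Γ μ) = 1 := (QuotientGroup.eq_one_iff g).2 h2
  rw [h3, orderOf_one] at hx
  exact hp.one_lt.ne hx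

namespace AbsLoc

variable (L : AbsLoc 𝓝 K μ p)

include L

theorem card_H0 (U : Subgroup Γ) (hUμ : ∀ u ∈ U, ∀ a : μ, u • a = a) :
    Nat.card (Hsm 𝓝 (IndMod (Γ ⧸ U) μ) 0) = p := by
  rw [Hsm.card_zero_coset U μ hUμ, L.cardμ]

variable [Smooth 𝓝 K]

theorem card_H1 {c : ℕ} (h8 : AbsL8 𝓝 K μ p c) (U : Subgroup Γ) [Finite (Γ ⧸ U)]
    [SmoothSet 𝓝 (Γ ⧸ U)] (hUμ : ∀ u ∈ U, ∀ a : μ, u • a = a) :
    Nat.card (Hsm 𝓝 (IndMod (Γ ⧸ U) μ) 1) = p ^ (2 + c * Nat.card (Γ ⧸ U)) := by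
  have h := Hsm.card_succ_of_kummer (𝓝 := 𝓝) (IndMod.shortExact_mapCoeff (Γ ⧸ U) L.exact) p
    (fun f => by ext z; exact L.ψ_eq (f z)) 0
  rw [zero_add] at h
  have h1 : torsCard p (Hsm 𝓝 (IndMod (Γ ⧸ U) K) 1) = 1 := by
    have : Subsingleton (Hsm 𝓝 (IndMod (Γ ⧸ U) K) 1) :=
      ⟨fun a b => by rw [L.L1 _ a, L.L1 _ b]⟩
    exact Nat.card_unique
  have h2 : modCard p (Hsm 𝓝 (IndMod (Γ ⧸ U) K) 0) = p ^ (2 + c * Nat.card (Γ ⧸ U)) := by
    refine h8 (Γ ⧸ U) ((1 : Γ) : Γ ⧸ U) fun τ hτ ζ => hUμ τ ?_ ζ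
    have : ((τ * 1 : Γ) : Γ ⧸ U) = ((1 : Γ) : Γ ⧸ U) := hτ
    rw [mul_one, QuotientGroup.eq, mul_one] at this
    exact inv_mem_iff.1 this
  rw [h, h1, h2, mul_one]

theorem card_H2 [NeZero p] (Y : Type) [MulAction Γ Y] [Finite Y] [SmoothSet 𝓝 Y]
    [MulAction.IsPretransitive Γ Y] [Nonempty Y] : Nat.card (Hsm 𝓝 (IndMod Y μ) 2) = p := by
  have hbij : Function.Bijective (L.tY Y) := by
    constructor
    · rw [injective_iff_map_eq_zero]
      exact L.tY_injective Y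
    · intro a
      obtain ⟨x, hx⟩ := L.exists_tY_eq_one Y
      refine ⟨a.val • x, ?_⟩
      rw [map_nsmul, hx, nsmul_one, ZMod.natCast_zmod_val]
  rw [Nat.card_congr (Equiv.ofBijective _ hbij), Nat.card_zmod]

/-- `H^3(Map(Γ/U, μ)) = 0`. -/
theorem H3_coset_eq_zero [Fact p.Prime] {c : ℕ} (h8 : AbsL8 𝓝 K μ p c) (hchi : Chi2Hyp 𝓝 p)
    (U : Subgroup Γ) (hU : 𝓝.IsOpen U) (x : Hsm 𝓝 (IndMod (Γ ⧸ U) μ) 3) : x = 0 := by
  have hp : p.Prime := Fact.out
  have : NeZero p := ⟨hp.ne_zero⟩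
  have : Smooth 𝓝 μ := L.exact.smooth_left
  have hfinμ : Finite μ := Nat.finite_of_card_ne_zero (by rw [L.cardμ]; exact hp.ne_zero)
  have hZ : 𝓝.IsOpen (actKer Γ μ) := isOpen_actKer
  have := hZ.finiteIndex
  refine Hsm.eq_zero_of_chain (𝓝 := 𝓝) (A := μ) hp 2
    (fun V => ∀ u ∈ V, ∀ a : μ, u • a = a) ?_ ?_ ?_ U hU x ?_
  · intro V hV
    refine ⟨V ⊓ actKer Γ μ, hV.inf hZ, inf_le_left, fun u hu => hu.2, ?_⟩
    rw [Subgroup.inf_relIndex_left]
    exact Nat.Coprime.coprime_dvd_left (Subgroup.relIndex_dvd_index_of_normal _ V)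
      (index_actKer_coprime L.cardμ)
  · intro V V' hV _ hle u hu a
    exact hV u (hle hu) a
  · intro V V' hle hV' hVμ hnorm hidx y _ hy
    have hVo : 𝓝.IsOpen V := hV'.mono hle
    have hV'μ : ∀ u ∈ V', ∀ a : μ, u • a = a := fun u hu a => hVμ u (hle hu) a
    have f1 : Finite (Γ ⧸ V) := by
      have := hVo.finiteIndex
      exact Subgroup.finite_quotient_of_finiteIndex
    have f2 : Finite (Γ ⧸ V') := by
      have := hV'.finiteIndex
      exact Subgroup.finite_quotient_of_finiteIndex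
    have s1 : SmoothSet 𝓝 (Γ ⧸ V) := SmoothSet.quotient _ hVo
    have s2 : SmoothSet 𝓝 (Γ ⧸ V') := SmoothSet.quotient _ hV'
    obtain ⟨s, -, hs, hcov⟩ := exists_cyclicCover_coset_prime hp hle hnorm hidx
    have hcard : Nat.card (Γ ⧸ V') = p * Nat.card (Γ ⧸ V) := by
      have h1 : V'.index = V'.relIndex V * V.index := (Subgroup.relIndex_mul_index hle).symm
      rw [hidx] at h1
      exact h1
    have a0 := L.card_H0 V hVμ
    have a1 := L.card_H1 h8 V hVμ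
    have a2 := L.card_H2 (Γ ⧸ V)
    have b0 := L.card_H0 V' hV'μ
    have b1 := L.card_H1 h8 V' hV'μ
    have b2 := L.card_H2 (Γ ⧸ V')
    have hinj := hchi hcov μ L.ptors
      (by
        intro i hi
        interval_cases i
        · exact Nat.finite_of_card_ne_zero (by rw [a0]; exact hp.ne_zero)
        · exact Nat.finite_of_card_ne_zero (by rw [a1]; exact pow_ne_zero _ hp.ne_zero)
        · exact Nat.finite_of_card_ne_zero (by rw [a2]; exact hp.ne_zero))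
      (by
        rw [a0, a1, a2, b0, b1, b2, hcard]
        ring)
    exact hinj (by rw [hy, map_zero])
  · refine ⟨1, ?_⟩
    rw [pow_one]
    exact nsmul_eq_zero_of_coeff p (fun f => by ext z; exact L.ptors (f z)) 3 x

/-- `H^3(Map(Y, μ)) = 0` for transitive `Y`. -/
theorem H3_transitive_eq_zero [Fact p.Prime] {c : ℕ} (h8 : AbsL8 𝓝 K μ p c) (hchi : Chi2Hyp 𝓝 p)
    (Y : Type) [MulAction Γ Y] [Finite Y] [SmoothSet 𝓝 Y] [MulAction.IsPretransitive Γ Y]
    [Nonempty Y] (x : Hsm 𝓝 (IndMod Y μ) 3) : x = 0 := by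
  obtain ⟨y0⟩ := ‹Nonempty Y›
  have hU : 𝓝.IsOpen (MulAction.stabilizer Γ y0) := SmoothSet.isOpen_stabilizer 𝓝 y0
  set w : (Γ ⧸ MulAction.stabilizer Γ y0) →[Γ] Y :=
    cosetToSet (MulAction.stabilizer Γ y0) y0 (fun u hu => MulAction.mem_stabilizer_iff.1 hu) with hw
  have hwb : Function.Bijective w := by
    constructor
    · intro a b hab
      induction a using QuotientGroup.induction_on with
      | H a =>
        induction b using QuotientGroup.induction_on with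
        | H b =>
          have hab' : a • y0 = b • y0 := hab
          rw [QuotientGroup.eq, MulAction.mem_stabilizer_iff, mul_smul, ← hab', inv_smul_smul]
    · intro y
      obtain ⟨g, rfl⟩ := MulAction.exists_smul_eq Γ y0 y
      exact ⟨(g : Γ ⧸ MulAction.stabilizer Γ y0), rfl⟩
  have hb : Function.Bijective (IndMod.pull μ w) := by
    constructor
    · exact IndMod.pull_injective hwb.2
    · intro f
      refine ⟨IndMod.of fun y => f ((Equiv.ofBijective w hwb).symm y), ?_⟩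
      ext z
      rw [IndMod.pull_apply, IndMod.of_apply]
      exact congrArg f ((Equiv.ofBijective w hwb).symm_apply_apply z)
  apply (Hsm.map_bijective (𝓝 := 𝓝) hb 3).1
  rw [map_zero]
  exact L.H3_coset_eq_zero h8 hchi _ hU _

/-- **(T2)**, abstract form: `H^3(Map(Y, μ)) = 0` for every finite smooth `Γ`-set `Y`. -/
theorem T2 [Fact p.Prime] {c : ℕ} (h8 : AbsL8 𝓝 K μ p c) (hchi : Chi2Hyp 𝓝 p)
    (Y : Type) [MulAction Γ Y] [Finite Y] [SmoothSet 𝓝 Y] (x : Hsm 𝓝 (IndMod Y μ) 3) : x = 0 := by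
  refine (isPartition_orbits (G := Γ) Y).hsm_ext 3 x fun ω => ?_
  have := smoothSet_orbit (𝓝 := 𝓝) ω
  have := nonempty_orbit ω
  exact L.H3_transitive_eq_zero h8 hchi ω.orbit _

end AbsLoc

end Fermat.Agent.S55.Asm
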