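/-
S55 / block ASM : (T2), (T3₁), (T3₂) of `ArithInput` from the local package `LocPkg p q`
(and LEMMA CHI2 for the local Galois group, as a hypothesis).
-/
import Fermat.Agent.S55.Asm.T2Abs
import Fermat.Agent.S55.Units.Kummer
import Fermat.Agent.S55.Bridge.MuCoef

set_option autoImplicit false

namespace Fermat.Agent.S55.Asm

variable {p : ℕ} [Fact p.Prime] {q : Nat.Primes}

/-- The abstract local package attached to `LocPkg p q`. -/
noncomputable def absLoc (L : LocPkg p q) :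
    AbsLoc (lvlLoc q) (KL q) (ResMod (ιv q) (Mu p)) p where
  φ := ResMod.map (ιv q) (Units.incMK p)
  ψ := ResMod.map (ιv q) (Units.mulBy GQ Kx p)
  exact := ResMod.shortExact_map (ιv q) (Units.kummerK p (Fact.out : p.Prime).pos)
  ψ_eq _ := rfl
  cardμ := Bridge.cardMu p
  inv := L.inv
  L1 := L.L1
  L3inj := L.L3inj
  L3surj := L.L3surj
  t := L.t
  t_spec := L.t_spec

omit [Fact p.Prime] in
theorem absL8 (L : LocPkg p q) :
    AbsL8 (lvlLoc q) (KL q) (ResMod (ιv q) (Mu p)) p (if (q : ℕ) = p then 1 else 0) := by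
  intro Y _ _ _ _ y hy
  rw [L.L8 Y y hy]
  congr 2
  split_ifs <;> simp

section transport

variable (X : Type) [MulAction GQ X]

omit [Fact p.Prime] in
/-- `Res (Map(X, μ)) → Map(Res X, Res μ)` induces a bijection in cohomology. -/
theorem toResSet_bijective (n : ℕ) :
    Function.Bijective (Hsm.map (𝓝 := lvlLoc q) (IndMod.toResSet (ιv q) X (Mu p)) n) :=
  Hsm.map_bijective ⟨fun a b h => by
    rw [← IndMod.ofResSet_toResSet (ιv q) X (Mu p) a, h, IndMod.ofResSet_toResSet],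
    fun b => ⟨_, IndMod.toResSet_ofResSet (ιv q) X (Mu p) b⟩⟩ n

variable [Finite X] [SmoothSet lvlAll X]

/-- (T2) for a finite smooth `GQ`-set. -/
theorem T2_set (L : LocPkg p q) (hchi : Chi2Hyp (lvlLoc q) p)
    (x : Hloc q (IndMod X (Mu p)) 3) : x = 0 := by
  apply (toResSet_bijective (q := q) X 3).1
  rw [map_zero]
  exact (absLoc L).T2 (absL8 L) hchi (ResSet (ιv q) X) _

/-- (T3₁) for a finite smooth `GQ`-set. -/
theorem T3₁_set (L : LocPkg p q) (x : Hloc q (IndMod X (Mu p)) 2)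
    (hx : ∀ f : HomLoc q (IndMod X (Mu p)) (Mu p), L.t (Hsm.map f 2 x) = 0) : x = 0 := by
  apply (toResSet_bijective (q := q) X 2).1
  rw [map_zero]
  refine (absLoc L).T3₁ (ResSet (ιv q) X) _ fun f => ?_
  rw [← Hsm.map_comp]
  exact hx _

/-- (T3₂) for a finite smooth `GQ`-set. -/
theorem T3₂_set (L : LocPkg p q) (f : HomLoc q (IndMod X (Mu p)) (Mu p))
    (hf : ∀ x : Hloc q (IndMod X (Mu p)) 2, L.t (Hsm.map f 2 x) = 0) (n) : f n = 0 := by
  have h := (absLoc L).T3₂ (ResSet (ιv q) X) (f.comp (IndMod.ofResSet (ιv q) X (Mu p)))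
    (fun x => by
      rw [Hsm.map_comp]
      exact hf _) (IndMod.toResSet (ιv q) X (Mu p) n)
  rwa [DistribMulActionHom.comp_apply, IndMod.ofResSet_toResSet] at h

end transport

/-! ### The fields of `ArithInput` -/

theorem finite_quot_of_isOpen {S : Finset Nat.Primes} {U : Subgroup GQ} (hU : (lvlS S).IsOpen U) :
    Finite (GQ ⧸ U) := by
  have := hU.finiteIndex
  exact Subgroup.finite_quotient_of_finiteIndex

theorem smoothSet_quot_of_isOpen {S : Finset Nat.Primes} {U : Subgroup GQ}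
    (hU : (lvlS S).IsOpen U) : SmoothSet lvlAll (GQ ⧸ U) := by
  obtain ⟨N, hN, hle⟩ := hU
  obtain ⟨N', hN', hle'⟩ := lvlS_le_lvlAll S N hN
  exact SmoothSet.quotient _ ⟨N', hN', hle'.trans hle⟩

variable (S : Finset Nat.Primes) (L : ∀ q, LocPkg p q)

include L in
/-- **(T2)**, the field of `ArithInput`. -/
theorem T2 (hchi : ∀ q, Chi2Hyp (lvlLoc q) p) :
    ∀ U : Subgroup GQ, (lvlS S).IsOpen U → ActsTrivially U (Mu p) → ∀ q ∈ S,
      ∀ x : Hloc q (IndMod (GQ ⧸ U) (Mu p)) 3, x = 0 := by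
  intro U hU _ q _ x
  have := finite_quot_of_isOpen hU
  have := smoothSet_quot_of_isOpen hU
  exact T2_set (GQ ⧸ U) (L q) (hchi q) x

/-- **(T3₁)**, the field of `ArithInput`. -/
theorem T3₁ : ∀ U ∈ (lvlS S).carrier, ActsTrivially U (Mu p) → ∀ q ∈ S,
    ∀ x : Hloc q (IndMod (GQ ⧸ U) (Mu p)) 2,
      (∀ f : HomLoc q (IndMod (GQ ⧸ U) (Mu p)) (Mu p), (L q).t (Hsm.map f 2 x) = 0) → x = 0 := by
  intro U hU _ q _ x hx
  have hU' : (lvlS S).IsOpen U := ⟨U, hU, le_rfl⟩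
  have := finite_quot_of_isOpen hU'
  have := smoothSet_quot_of_isOpen hU'
  exact T3₁_set (GQ ⧸ U) (L q) x hx

/-- **(T3₂)**, the field of `ArithInput`. -/
theorem T3₂ : ∀ U ∈ (lvlS S).carrier, ActsTrivially U (Mu p) → ∀ q ∈ S,
    ∀ f : HomLoc q (IndMod (GQ ⧸ U) (Mu p)) (Mu p),
      (∀ x : Hloc q (IndMod (GQ ⧸ U) (Mu p)) 2, (L q).t (Hsm.map f 2 x) = 0) → ∀ n, f n = 0 := by
  intro U hU _ q _ f hf n
  have hU' : (lvlS S).IsOpen U := ⟨U, hU, le_rfl⟩
  have := finite_quot_of_isOpen hU'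
  have := smoothSet_quot_of_isOpen hU'
  exact T3₂_set (GQ ⧸ U) (L q) f hf n

end Fermat.Agent.S55.Asm
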