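/-
S55 / block ASM : (T2) of `ArithInput` from the local packages alone (LEMMA CHI2 discharged).
-/
import Fermat.Agent.S55.Asm.Inst
import Fermat.Agent.S55.Formal.Chi2.Cover

set_option autoImplicit false

namespace Fermat.Agent.S55.Asm

theorem chi2Hyp {Γ : Type} [Group Γ] (𝓝 : LevelSys Γ) (p : ℕ) [Fact p.Prime] : Chi2Hyp 𝓝 p := by
  intro X' X _ _ _ _ _ _ u σ h A _ _ _ hA hfin hchi
  refine Chi2.pull_injective_of_chi2 hA h
    ⟨hfin 0 (by norm_num), hfin 1 (by norm_num), hfin 2 le_rfl⟩ ?_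
  unfold Chi2.ev Chi2.od
  rw [hchi, Nat.mul_comm]

/-- **(T2)**, the field of `ArithInput`. -/
theorem T2' {p : ℕ} [Fact p.Prime] (S : Finset Nat.Primes) (L : ∀ q, LocPkg p q) :
    ∀ U : Subgroup GQ, (lvlS S).IsOpen U → ActsTrivially U (Mu p) → ∀ q ∈ S,
      ∀ x : Hloc q (IndMod (GQ ⧸ U) (Mu p)) 3, x = 0 :=
  T2 S L fun q => chi2Hyp (lvlLoc q) p

end Fermat.Agent.S55.Asm
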