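/-
S55 / block ASM : THE FINAL ASSEMBLY.  `arithInput_exists` from the blocks LOC, DICT/NIT, BR, UNITS,
CHI2, EXIST, and `card_Sha` (what BRIDGE consumes) through THEOREM F2 and THEOREM F1.
-/
import Fermat.Agent.S55.Bridge.MuCoef
import Fermat.Agent.S55.Formal.F1
import Fermat.Agent.S55.F2.Final
import Fermat.Agent.S55.Dict.Main
import Fermat.Agent.S55.Units.U4
import Fermat.Agent.S55.Units.T1.Top
import Fermat.Agent.S55.Asm.Final
import Fermat.Agent.S55.Loc.Pkg
import Fermat.Agent.S55.Loc.Field.LocalArithFull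
import Fermat.Agent.S55.BR.Pkg.Main
import Fermat.Agent.S55.Exist.Main

set_option autoImplicit false

namespace Fermat.Agent.S55.Asm

variable {S : Finset Nat.Primes} {p : ℕ} [Fact p.Prime]

/-- The local package (block LOC). -/
theorem locPkg_exists (p : ℕ) [Fact p.Prime] (q : Nat.Primes) : Nonempty (LocPkg p q) :=
  Loc.locPkg_of_localArith p q (Fact.out : p.Prime).pos
    (Loc.Field.localArithFull p Fact.out q)

/-- The arithmetic input (T1)-(T5). -/
theorem arithInput_exists (hp2 : p ≠ 2) (hpS : ExtCitation.pPrime p ∈ S) :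
    Nonempty (ArithInput S p) := by
  have hp : p.Prime := Fact.out
  have L : ∀ q, LocPkg p q := fun q => Classical.choice (locPkg_exists p q)
  have N := Dict.nitOut_of_locPkg hp hp2 L
  have B := brPkg hp2 L N
  exact ⟨{
    t := fun q => (L q).t
    coefMu := Bridge.coefMu S hpS
    cardMu := Bridge.cardMu p
    T1 := T1.top' hp2 hpS L (Units.needB1_of_brPkg B) (Units.needB3_of_brPkg B S)
      (Units.needB4_of_brPkg B S hpS)
    T2 := Asm.T2' S L
    T3₁ := Asm.T3₁ S L
    T3₂ := Asm.T3₂ S L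
    T4₀ := Units.T4₀ hpS B
    T4₁ := Units.T4₁ hpS B
    T5 := Exist.T5 hp2 hpS B }⟩

/-- What BRIDGE consumes: `#Sha^2_S(M) = #Sha^1_S(Hom(M, μ_p))`. -/
theorem card_Sha (hp2 : p ≠ 2) (hpS : ExtCitation.pPrime p ∈ S)
    (M : Type) [AddCommGroup M] [DistribMulAction GQ M] (hM : IsCoef S p M) :
    Finite (Sha S M 2) ∧ Nat.card (Sha S M 2) = Nat.card (Sha S (HomMod M (Mu p)) 1) := by
  obtain ⟨I⟩ := arithInput_exists (S := S) hp2 hpS
  obtain ⟨C⟩ := F2.contract_of_arithInput I
  exact Formal.F1 ⟨_, hpS⟩ C M hM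

end Fermat.Agent.S55.Asm
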